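import Mathlib
import Fermat.Prelude.Def_AlgebraicGeometry_RelativePicardFunctor

/-!
# S25, block C2: sections of the structure sheaf on `C × T`

For `C` proper and integral over an algebraically closed field `k` and `T` an arbitrary
`k`-scheme, `Γ(T, V) → Γ(C ×ₖ T, p⁻¹ V)` is bijective for every open subset `V` of `T`.
-/

set_option autoImplicit false

universe u

open CategoryTheory CategoryTheory.Limits AlgebraicGeometry TopologicalSpace
open NeronModelInfra AlgebraicGeometry.RelPicard

namespace Fermat.Agent.JC2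

/-- a morphism which is an isomorphism on sections over affine open subsets is an isomorphism
on sections over all open subsets -/
theorem isIso_app_of_affine {X T : Scheme.{u}} (p : X ⟶ T)
    (h : ∀ V : T.Opens, IsAffineOpen V → IsIso (p.app V)) (V : T.Opens) : IsIso (p.app V) := by
  let F : TopCat.Sheaf CommRingCat T := ⟨T.presheaf, T.IsSheaf⟩
  let G : TopCat.Sheaf CommRingCat T := (TopCat.Sheaf.pushforward CommRingCat p.base).obj
    ⟨X.presheaf, X.IsSheaf⟩
  let φ : F ⟶ G := ⟨p.c⟩
  let B : T.affineOpens → T.Opens := Subtype.val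
  have hB : Opens.IsBasis (Set.range B) := by
    rw [Subtype.range_coe]
    exact T.isBasis_affineOpens
  have hφ : IsIso φ := TopCat.Sheaf.isIso_iff_isIso_basis hB fun U => h U.1 U.2
  have h1 : IsIso ((TopCat.Sheaf.forget CommRingCat T).map φ) := inferInstance
  have h2 : IsIso (((TopCat.Sheaf.forget CommRingCat T).map φ).app (.op V)) := inferInstance
  exact h2

section

variable {k : Type u} [Field k] [IsAlgClosed k] {C : Scheme.{u}} (c : C ⟶ Spec (CommRingCat.of k))
  [IsProper c] [IsIntegral C]

/-- `Γ(C, O) = k` -/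
theorem isIso_appTop : IsIso c.appTop := by
  let F := (Scheme.ΓSpecIso (.of k)).inv ≫ c.appTop
  have hF : F.hom.IsIntegral := by
    apply RingHom.isIntegral_respectsIso.2
      (e := (Scheme.ΓSpecIso _).symm.commRingCatIsoToRingEquiv)
    exact isIntegral_appTop_of_universallyClosed c
  have hbij : Function.Bijective F.hom := by
    let _ : Algebra k Γ(C, ⊤) := F.hom.toAlgebra
    have : Algebra.IsIntegral k Γ(C, ⊤) := ⟨hF⟩
    exact IsAlgClosed.algebraMap_bijective_of_isIntegral (k := k) (K := Γ(C, ⊤))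
  have h1 : IsIso F := (ConcreteCategory.isIso_iff_bijective F).mpr hbij
  exact IsIso.of_isIso_comp_left (Scheme.ΓSpecIso (.of k)).inv c.appTop

variable {T : Scheme.{u}} (t : T ⟶ Spec (CommRingCat.of k))

theorem isIso_app_snd_of_isAffineOpen (V : T.Opens) (hV : IsAffineOpen V) :
    IsIso ((pullback.snd c t).app V) := by
  have H : IsPullback (pullback.fst c t) (pullback.snd c t) c t := IsPullback.of_hasPullback c t
  have hUST : V ≤ t ⁻¹ᵁ ⊤ := le_top
  have hUSX : (⊤ : C.Opens) ≤ c ⁻¹ᵁ ⊤ := le_top
  have hUY : (pullback.snd c t) ⁻¹ᵁ V =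
      (pullback.fst c t) ⁻¹ᵁ ⊤ ⊓ (pullback.snd c t) ⁻¹ᵁ V := by simp
  have hc : CompactSpace C := (quasiCompact_iff_compactSpace c).mp inferInstance
  have hq : QuasiSeparatedSpace C := (quasiSeparated_iff_quasiSeparatedSpace c).mp inferInstance
  have := isIso_pushoutSection_of_isQuasiSeparated_of_flat_right H hUST hUSX hUY
    (isAffineOpen_top _) hV isCompact_univ isQuasiSeparated_univ
  have hP := (isIso_pushoutSection_iff H hUST hUSX hUY).mp this
  have h1 : IsIso (c.appLE ⊤ ⊤ hUSX) := by
    have h := Scheme.Hom.appLE_eq_app (f := c) (U := ⊤)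
    have := isIso_appTop c
    exact h ▸ this
  have h2 := hP.isIso_inr_of_isIso
  have h := Scheme.Hom.appLE_eq_app (f := pullback.snd c t) (U := V)
  exact h ▸ h2

/-- **`Γ(T, V) ≃ Γ(C ×ₖ T, p⁻¹ V)` for every open subset `V` of `T`.** -/
theorem isIso_app_snd (V : T.Opens) : IsIso ((pullback.snd c t).app V) :=
  isIso_app_of_affine _ (isIso_app_snd_of_isAffineOpen c t) V

theorem bijective_app_snd (V : T.Opens) : Function.Bijective ((pullback.snd c t).app V).hom :=
  (ConcreteCategory.isIso_iff_bijective _).mp (isIso_app_snd c t V)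

variable (ε : SchemeHomOver (𝟙 (Spec (CommRingCat.of k))) c)

omit [IsAlgClosed k] [IsProper c] [IsIntegral C] in
theorem rigSection_snd : rigSection c t ε ≫ pullback.snd c t = 𝟙 T :=
  pullback.lift_snd _ _ _

/-- the pullback of sections along the section `ε_T` is a retraction of `p^*` -/
theorem bijective_app_rigSection (V : T.Opens) :
    Function.Bijective ((rigSection c t ε).app ((pullback.snd c t) ⁻¹ᵁ V)).hom := by
  have h1 := isIso_app_snd c t V
  have h2 : IsIso (rigSection c t ε ≫ pullback.snd c t) := by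
    rw [rigSection_snd c t ε]; infer_instance
  have h3 : IsIso ((rigSection c t ε ≫ pullback.snd c t).app V) := inferInstance
  rw [Scheme.Hom.comp_app] at h3
  have h4 : IsIso ((rigSection c t ε).app ((pullback.snd c t) ⁻¹ᵁ V)) :=
    @IsIso.of_isIso_comp_left _ _ _ _ _ ((pullback.snd c t).app V) _ h1 h3
  exact (ConcreteCategory.isIso_iff_bijective _).mp h4

/-- sections over `p⁻¹ V` are determined by their restriction along `ε_T` -/
theorem eq_of_rigSection (V : T.Opens) (s s' : Γ(pullback c t, (pullback.snd c t) ⁻¹ᵁ V))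
    (h : (rigSection c t ε).app ((pullback.snd c t) ⁻¹ᵁ V) s =
      (rigSection c t ε).app ((pullback.snd c t) ⁻¹ᵁ V) s') : s = s' :=
  (bijective_app_rigSection c t ε V).1 h

/-- a unit over `p⁻¹ V` restricting to `1` along `ε_T` is `1` -/
theorem unit_eq_one_of_rigSection (V : T.Opens)
    (u : (Γ(pullback c t, (pullback.snd c t) ⁻¹ᵁ V))ˣ)
    (h : Units.map ((rigSection c t ε).app ((pullback.snd c t) ⁻¹ᵁ V)).hom.toMonoidHom u = 1) :
    u = 1 := by
  apply Units.ext
  apply eq_of_rigSection c t ε V
  rw [Units.val_one, map_one]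
  exact congrArg Units.val h

/-- existence of units over `p⁻¹ V` with given restriction along `ε_T` -/
theorem exists_unit_of_rigSection (V : T.Opens)
    (v : (Γ(T, (rigSection c t ε) ⁻¹ᵁ (pullback.snd c t) ⁻¹ᵁ V))ˣ) :
    ∃! u : (Γ(pullback c t, (pullback.snd c t) ⁻¹ᵁ V))ˣ,
      Units.map ((rigSection c t ε).app ((pullback.snd c t) ⁻¹ᵁ V)).hom.toMonoidHom u = v := by
  let e := RingEquiv.ofBijective ((rigSection c t ε).app ((pullback.snd c t) ⁻¹ᵁ V)).hom
    (bijective_app_rigSection c t ε V)
  refine ⟨Units.mapEquiv e.symm.toMulEquiv v, ?_, ?_⟩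
  · apply Units.ext
    exact e.apply_symm_apply v
  · intro u hu
    apply Units.ext
    show (u : Γ(pullback c t, (pullback.snd c t) ⁻¹ᵁ V)) = e.symm v
    rw [← hu]
    exact (e.symm_apply_apply _).symm

end

end Fermat.Agent.JC2
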